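import Fermat.Agent.FunField.RR
import Fermat.Agent.FunField.Approx
import Fermat.Prelude.Def_AlgebraicCurve_Correspondence

/-!
# Fundamental identity and norm formula for extensions of function fields
-/

set_option autoImplicit false

noncomputable section

open AlgebraicCurve IsDedekindDomain WithZero

namespace Fermat.Agent.PushPull

open Fermat.Agent.FunField Fermat.Agent.FunField.PlaceLemmas IntermediateField

section Single

variable {K F : Type*} [Field K] [Field F] [Algebra K F]

/-- There is a function with poles only at `v`. -/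
theorem exists_pole_only [IsFF K F] (v : Place K F) :
    ∃ y : F, v.ord y < 0 ∧ ∀ w : Place K F, w ≠ v → 0 ≤ w.ord y := by
  classical
  obtain ⟨γ, hγ⟩ := exists_defect_bound (K := K) (F := F)
  set l0 : ℤ := (Module.finrank K (riemannRochSpace (0 : Divisor K F)) : ℤ) with hl0
  set n : ℕ := (γ + l0 + 1).toNat with hn
  have h1 := hγ (Finsupp.single v (n : ℤ))
  unfold defect at h1
  rw [Divisor.degree_single] at h1
  have hd : (1 : ℤ) ≤ v.deg := by exact_mod_cast deg_pos v
  have h2 : γ + l0 + 1 ≤ (n : ℤ) := Int.self_le_toNat _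
  have h3 : (n : ℤ) ≤ n * v.deg := by nlinarith [Int.natCast_nonneg n]
  have h4 : l0 < Module.finrank K (riemannRochSpace (Finsupp.single v (n : ℤ))) := by linarith
  have hle : riemannRochSpace (0 : Divisor K F) ≤ riemannRochSpace (Finsupp.single v (n : ℤ)) :=
    rr_mono (by
      intro w
      rw [Finsupp.single_apply]
      split_ifs <;> simp)
  have hne : ∃ y ∈ riemannRochSpace (Finsupp.single v (n : ℤ)),
      y ∉ riemannRochSpace (0 : Divisor K F) := by
    by_contra hcon
    push Not at hcon
    have : riemannRochSpace (Finsupp.single v (n : ℤ)) = riemannRochSpace (0 : Divisor K F) :=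
      le_antisymm hcon hle
    rw [this] at h4
    exact lt_irrefl _ h4
  obtain ⟨y, hy, hy0⟩ := hne
  have hy00 : y ≠ 0 := fun h => hy0 (h ▸ Submodule.zero_mem _)
  rw [mem_rr] at hy hy0
  have hw : ∀ w : Place K F, w ≠ v → 0 ≤ w.ord y := by
    intro w hwv
    have := hy w
    rw [mem_geSub_of_ne hy00, Finsupp.single_apply, if_neg (Ne.symm hwv)] at this
    simpa using this
  refine ⟨y, ?_, hw⟩
  by_contra hv
  push Not at hv
  apply hy0
  intro w
  rw [mem_geSub_of_ne hy00]
  by_cases hwv : w = v
  · subst hwv; simpa using hv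
  · simpa using hw w hwv

/-- There is a function with zeros only at `v`. -/
theorem exists_zero_only [IsFF K F] (v : Place K F) :
    ∃ (x : F) (n : ℕ), 0 < n ∧ x ≠ 0 ∧ zeroDiv x = Finsupp.single v (n : ℤ) := by
  classical
  obtain ⟨y, hy, hyw⟩ := exists_pole_only v
  refine ⟨y⁻¹, (-(v.ord y)).toNat, by omega, ?_, ?_⟩
  · intro h
    rw [inv_eq_zero] at h
    rw [h] at hy
    simp at hy
  · ext w
    rw [zeroDiv_apply, w.ord_inv, Finsupp.single_apply]
    split_ifs with h
    · subst h; omega
    · have := hyw w (Ne.symm h)
      omega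

end Single

section Ext

variable {K F F' : Type*} [Field K] [Field F] [Field F'] [Algebra K F] [Algebra K F']
  [Algebra F F'] [IsScalarTower K F F']

theorem transcendental_algebraMap {x : F} (hx : Transcendental K x) :
    Transcendental K (algebraMap F F' x) := by
  intro h
  exact hx ((isAlgebraic_algebraMap_iff (algebraMap F F').injective).mp h)

variable (K F F') in
/-- A finite extension of a function field is a function field. -/
theorem isFF_of_finite [h : IsFF K F] [Module.Finite F F'] : IsFF K F' := by
  obtain ⟨x, hx, hfin⟩ := h.exists_transcendental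
  refine ⟨⟨algebraMap F F' x, transcendental_algebraMap hx, ?_⟩⟩
  have h0 : Algebra.EssFiniteType K F' := Algebra.EssFiniteType.comp K F F'
  have h1 : Algebra.EssFiniteType K⟮algebraMap F F' x⟯ F' :=
    Algebra.EssFiniteType.of_comp K K⟮algebraMap F F' x⟯ F'
  have h2 : Algebra.IsAlgebraic K⟮algebraMap F F' x⟯ F' := by
    have : Algebra.IsAlgebraic K⟮x⟯ F' := Algebra.IsAlgebraic.trans K⟮x⟯ F F'
    refine ⟨fun a => ?_⟩
    have ha : IsAlgebraic K⟮x⟯ a := Algebra.IsAlgebraic.isAlgebraic a
    obtain ⟨p, hp0, hp⟩ := ha
    have hmem : ∀ y : K⟮x⟯, algebraMap F F' (y : F) ∈ K⟮algebraMap F F' x⟯ := by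
      intro y
      have h3 : (K⟮x⟯).map (IsScalarTower.toAlgHom K F F') = K⟮algebraMap F F' x⟯ := by
        rw [adjoin_map, Set.image_singleton]; rfl
      rw [← h3]
      exact ⟨y, y.2, rfl⟩
    let φ : K⟮x⟯ →+* K⟮algebraMap F F' x⟯ :=
      ((algebraMap F F').comp (algebraMap K⟮x⟯ F)).codRestrict _ hmem
    refine ⟨p.map φ, (Polynomial.map_ne_zero_iff φ.injective).mpr hp0, ?_⟩
    rw [Polynomial.aeval_def, Polynomial.eval₂_map]
    have h4 : (algebraMap K⟮algebraMap F F' x⟯ F').comp φ = algebraMap K⟮x⟯ F' := by
      ext y; rfl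
    rw [h4, ← Polynomial.aeval_def]
    exact hp
  exact finiteDimensional_of_essFiniteType_of_isAlgebraic _ _

/-- Degrees in towers. -/
theorem finrank_adjoin_algebraMap (x : F) :
    Module.finrank K⟮algebraMap F F' x⟯ F' = Module.finrank K⟮x⟯ F * Module.finrank F F' := by
  rw [Module.finrank_mul_finrank K⟮x⟯ F F']
  have h3 : (K⟮x⟯).map (IsScalarTower.toAlgHom K F F') = K⟮algebraMap F F' x⟯ := by
    rw [adjoin_map, Set.image_singleton]; rfl
  let e1 := equivMap K⟮x⟯ (IsScalarTower.toAlgHom K F F')
  have h4 : Module.finrank K⟮x⟯ F' =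
      Module.finrank ((K⟮x⟯).map (IsScalarTower.toAlgHom K F F')) F' :=
    Algebra.finrank_eq_of_equiv_equiv e1.toRingEquiv (RingEquiv.refl F') (by
      ext y; rfl)
  rw [h4, h3]

variable [IsFF K F] [IsFF K F'] [Module.Finite F F']

/-- The pullback of the divisor of zeros is the divisor of zeros. -/
theorem pullback_zeroDiv (x : F) :
    Divisor.pullback F' (zeroDiv x : Divisor K F) = zeroDiv (algebraMap F F' x) := by
  ext w
  rw [Divisor.pullback_apply, zeroDiv_apply, zeroDiv_apply, w.ord_restrict]
  have h : (0 : ℤ) < w.ramificationIndex F := by exact_mod_cast w.ramificationIndex_pos (F := F)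
  rcases le_total ((w.restrict F).ord x) 0 with h1 | h1
  · rw [max_eq_right h1, max_eq_right (mul_nonpos_of_nonneg_of_nonpos h.le h1), mul_zero]
  · rw [max_eq_left h1, max_eq_left (mul_nonneg h.le h1)]

variable (K F F') in
/-- **Fundamental identity** for finite extensions of function fields. -/
instance fundamentalIdentity : FundamentalIdentity K F F' where
  sum_ramificationIndex_mul_deg v := by
    obtain ⟨x, n, hn, hx0, hx⟩ := exists_zero_only v
    have hordv : v.ord x = n := by
      have := DFunLike.congr_fun hx v
      rw [zeroDiv_apply, Finsupp.single_eq_same] at this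
      omega
    have htr : Transcendental K x := transcendental_of_ord_ne_zero v (by omega)
    have htr' : Transcendental K (algebraMap F F' x) := transcendental_algebraMap htr
    have h1 := degree_zeroDiv htr
    have h2 := degree_zeroDiv htr'
    rw [finrank_adjoin_algebraMap, ← pullback_zeroDiv, hx, Divisor.pullback_single, map_sum] at h2
    rw [hx, Divisor.degree_single] at h1
    simp_rw [Divisor.degree_single, mul_assoc] at h2
    rw [← Finset.mul_sum, Nat.cast_mul, ← h1] at h2
    have hn' : (n : ℤ) ≠ 0 := by exact_mod_cast hn.ne'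
    apply mul_left_cancel₀ hn'
    rw [h2]
    ring

omit [IsFF K F] in
/-- integrality over the local ring of a place. -/
theorem isIntegral_of_forall_ord_nonneg (v : Place K F) {f : F'}
    (hf : ∀ w : Place K F', w.restrict F = v → 0 ≤ w.ord f) :
    IsIntegral v.toValuationSubring f := by
  rcases eq_or_ne f 0 with rfl | hf0
  · exact isIntegral_zero
  let s : Set F' := (algebraMap F F') '' (v.toValuationSubring : Set F)
  have hclos : f ∈ (integralClosure (Subring.closure s) F').toSubring := by
    rw [← iInf_valuationSubring_superset, Subring.mem_iInf]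
    rintro ⟨B, hB⟩
    show f ∈ B
    have hvB : ∀ a : F, a ∈ v.toValuationSubring → algebraMap F F' a ∈ B := fun a ha =>
      hB ⟨a, ha, rfl⟩
    by_cases htop : B = ⊤
    · rw [htop]; trivial
    have hKB : ∀ c : K, algebraMap K F' c ∈ B := fun c => by
      rw [IsScalarTower.algebraMap_apply K F F']
      exact hvB _ (v.algebraMap_mem' c)
    let w : Place K F' := placeOfValuationSubring B hKB htop
    have hw : v = w.restrict F := eq_of_le (fun a ha => by
      rw [Place.mem_restrict_iff]
      exact hvB a ha)
    exact (mem_iff_ord_nonneg w hf0).mpr (hf w hw.symm)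
  have h1 : IsIntegral (Subring.closure s) f := hclos
  have h2 : ∀ y : Subring.closure s, ∃ a : v.toValuationSubring,
      algebraMap F F' (a : F) = (y : F') := by
    have h3 : Subring.closure s ≤ (v.toValuationSubring.toSubring).map (algebraMap F F') := by
      rw [Subring.closure_le]
      rintro _ ⟨a, ha, rfl⟩
      exact ⟨a, ha, rfl⟩
    intro y
    obtain ⟨a, ha, hay⟩ := h3 y.2
    exact ⟨⟨a, ha⟩, hay⟩
  obtain ⟨p, hpm, hp⟩ := h1
  -- transfer: the closure is integral over O_v trivially
  have h4 : ∀ y : Subring.closure s, IsIntegral v.toValuationSubring (y : F') := by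
    intro y
    obtain ⟨a, ha⟩ := h2 y
    rw [← ha, IsScalarTower.algebraMap_apply F F F', show algebraMap F F (a : F) =
      algebraMap v.toValuationSubring F a from rfl, ← IsScalarTower.algebraMap_apply]
    exact isIntegral_algebraMap
  have h5 : IsIntegral (integralClosure v.toValuationSubring F') f := by
    let φ : Subring.closure s →+* integralClosure v.toValuationSubring F' :=
      (Subring.closure s).subtype.codRestrict (integralClosure v.toValuationSubring F').toSubring
        (fun y => h4 y)
    refine ⟨p.map φ, hpm.map φ, ?_⟩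
    rw [Polynomial.eval₂_map]
    exact hp
  exact isIntegral_trans (A := integralClosure v.toValuationSubring F') f h5

end Ext

end Fermat.Agent.PushPull
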