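import Fermat.Agent.PushPull.Fundamental
import Fermat.Prelude.Def_AlgebraicCurve_IsCurveOver

/-!
# The norm formula `φ_* (div f) = div (N f)` over an algebraically closed constant field
-/

set_option autoImplicit false

noncomputable section

open AlgebraicCurve IsDedekindDomain WithZero

namespace Fermat.Agent.PushPull

open Fermat.Agent.FunField Fermat.Agent.FunField.PlaceLemmas IntermediateField

variable {K F F' : Type*} [Field K] [Field F] [Field F'] [Algebra K F] [Algebra K F']
  [Algebra F F'] [IsScalarTower K F F'] [IsFF K F'] [Module.Finite F F']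

omit [IsScalarTower K F F'] [IsFF K F'] in
theorem norm_ne_zero {f : F'} (hf : f ≠ 0) : Algebra.norm F f ≠ 0 :=
  Algebra.norm_ne_zero_iff.mpr hf

/-- The norm of an integral element is integral. -/
theorem norm_ord_nonneg (v : Place K F) {f : F'}
    (hf : ∀ w : Place K F', w.restrict F = v → 0 ≤ w.ord f) : 0 ≤ v.ord (Algebra.norm F f) := by
  rcases eq_or_ne f 0 with rfl | hf0
  · have : Algebra.norm F (0 : F') = 0 := by
      simp
    rw [this]; simp
  have h1 := isIntegral_of_forall_ord_nonneg v hf
  have h2 := Algebra.isIntegral_norm F h1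
  obtain ⟨a, ha⟩ := IsIntegrallyClosed.isIntegral_iff.mp h2
  rw [← mem_iff_ord_nonneg v (norm_ne_zero hf0), ← ha]
  exact a.2

theorem norm_ord_eq_zero (v : Place K F) {f : F'}
    (hf : ∀ w : Place K F', w.restrict F = v → w.ord f = 0) : v.ord (Algebra.norm F f) = 0 := by
  have h1 := norm_ord_nonneg v (f := f) (fun w hw => (hf w hw).ge)
  have h2 := norm_ord_nonneg v (f := f⁻¹) (fun w hw => by rw [w.ord_inv, hf w hw, neg_zero])
  rcases eq_or_ne f 0 with rfl | hf0
  · simp
  have h3 : Algebra.norm F f⁻¹ = (Algebra.norm F f)⁻¹ := by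
    apply eq_inv_of_mul_eq_one_left
    rw [← map_mul, inv_mul_cancel₀ hf0, map_one]
  rw [h3, v.ord_inv] at h2
  omega

/-- positivity of the norm. -/
theorem norm_ord_pos (v : Place K F) {f : F'} (hf0 : f ≠ 0)
    (hf : ∀ w : Place K F', w.restrict F = v → 0 ≤ w.ord f)
    (w₀ : Place K F') (hw₀ : w₀.restrict F = v) (hpos : 0 < w₀.ord f) :
    0 < v.ord (Algebra.norm F f) := by
  have hint := isIntegral_of_forall_ord_nonneg v hf
  have hintF : IsIntegral F f := Algebra.IsIntegral.isIntegral f
  set p := minpoly v.toValuationSubring f with hp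
  have hmin : minpoly F f = p.map (algebraMap v.toValuationSubring F) :=
    minpoly.isIntegrallyClosed_eq_field_fractions' F hint
  -- the constant coefficient
  set a : F := (minpoly F f).coeff 0 with ha
  have ha' : a = ((p.coeff 0 : v.toValuationSubring) : F) := by
    rw [ha, hmin, Polynomial.coeff_map]; rfl
  have ha0 : a ≠ 0 := minpoly.coeff_zero_ne_zero hintF hf0
  have hav : a ∈ v.toValuationSubring := by rw [ha']; exact (p.coeff 0).2
  -- `a = - f * g` with `g` integral at `w₀`
  have hfw : f ∈ w₀.toValuationSubring := (mem_iff_ord_nonneg w₀ hf0).mpr hpos.le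
  have hgmem : Polynomial.aeval f p.divX ∈ w₀.toValuationSubring := by
    rw [Polynomial.aeval_eq_sum_range]
    refine sum_mem fun i _ => ?_
    rw [Algebra.smul_def]
    refine mul_mem ?_ (pow_mem hfw i)
    have h1 : ((p.divX.coeff i : v.toValuationSubring) : F) ∈ (w₀.restrict F).toValuationSubring := by
      rw [hw₀]; exact (p.divX.coeff i).2
    exact Place.mem_restrict_iff w₀ |>.mp h1
  have hrel : algebraMap F F' a = -(f * Polynomial.aeval f p.divX) := by
    have h0 : Polynomial.aeval f p = 0 := minpoly.aeval _ _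
    rw [← Polynomial.divX_mul_X_add p, map_add, map_mul, Polynomial.aeval_X,
      Polynomial.aeval_C] at h0
    rw [ha']
    have h1 : algebraMap F F' ((p.coeff 0 : v.toValuationSubring) : F) =
      algebraMap v.toValuationSubring F' (p.coeff 0) := rfl
    rw [h1]
    linear_combination h0
  have hgne : Polynomial.aeval f p.divX ≠ 0 := by
    intro h0
    rw [h0, mul_zero, neg_zero, map_eq_zero] at hrel
    exact ha0 hrel
  have haw : 0 < w₀.ord (algebraMap F F' a) := by
    rw [hrel, ord_neg, w₀.ord_mul hf0 hgne]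
    have := (mem_iff_ord_nonneg w₀ hgne).mp hgmem
    omega
  have hav' : 0 < v.ord a := by
    rw [w₀.ord_restrict, hw₀] at haw
    exact pos_of_mul_pos_right haw (Int.natCast_nonneg _)
  -- the norm is a power of the constant coefficient
  rw [Algebra.norm_eq_norm_adjoin]
  have h2 := Algebra.PowerBasis.norm_gen_eq_coeff_zero_minpoly (adjoin.powerBasis hintF)
  have h3 : (adjoin.powerBasis hintF).gen = AdjoinSimple.gen F f := adjoin.powerBasis_gen hintF
  rw [h3, minpoly_gen, ← ha] at h2
  rw [h2, ord_pow, v.ord_mul (pow_ne_zero _ (neg_ne_zero.mpr one_ne_zero)) ha0, ord_pow,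
    ord_neg, v.ord_one, mul_zero, zero_add]
  have h4 : 0 < Module.finrank F⟮f⟯ F' := Module.finrank_pos
  exact mul_pos (by exact_mod_cast h4) hav'

open Classical in
theorem exists_isolating (v : Place K F) (w₀ : Place K F') :
    ∃ f : F', f ≠ 0 ∧ (∀ w : Place K F', w.restrict F = v → w.ord f = if w = w₀ then 1 else 0) := by
  obtain ⟨f, hf0, hf⟩ := exists_forall_ord_eq
    (fun w : v.fiber F' => (w : Place K F')) Subtype.val_injective
    (fun w => if (w : Place K F') = w₀ then 1 else 0)
  refine ⟨f, hf0, fun w hw => ?_⟩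
  exact hf ⟨w, Place.mem_fiber.mpr hw⟩

/-- The norm formula at `v`, with multiplicities `a w ≥ 1`. -/
theorem exists_norm_formula (v : Place K F) :
    ∃ a : Place K F' → ℤ, (∀ w : Place K F', w.restrict F = v → 1 ≤ a w) ∧
      ∀ f : F', f ≠ 0 → v.ord (Algebra.norm F f) = ∑ w ∈ v.fiber F', a w * w.ord f := by
  classical
  choose g hg0 hg using fun w₀ : Place K F' => exists_isolating (F' := F') v w₀
  refine ⟨fun w => v.ord (Algebra.norm F (g w)), fun w hw => ?_, fun f hf0 => ?_⟩
  · have := norm_ord_pos v (hg0 w) (fun w' hw' => by rw [hg w w' hw']; split_ifs <;> simp) w hw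
      (by rw [hg w w hw, if_pos rfl]; exact one_pos)
    exact this
  · -- `f / ∏ g_w ^ {ord_w f}` is a unit above `v`
    set h : F' := ∏ w ∈ v.fiber F', g w ^ (w.ord f) with hh
    have hh0 : h ≠ 0 := Finset.prod_ne_zero_iff.mpr fun w _ => zpow_ne_zero _ (hg0 w)
    have hordprod : ∀ (w' : Place K F') (s : Finset (Place K F')),
        w'.ord (∏ w ∈ s, g w ^ (w.ord f)) = ∑ w ∈ s, w.ord f * w'.ord (g w) := by
      intro w' s
      induction s using Finset.induction_on with
      | empty => simp
      | insert w s hws ih =>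
        rw [Finset.prod_insert hws, Finset.sum_insert hws, w'.ord_mul
          (zpow_ne_zero _ (hg0 w)) (Finset.prod_ne_zero_iff.mpr fun w _ => zpow_ne_zero _ (hg0 w)),
          ih, w'.ord_zpow]
    have hunit : ∀ w' : Place K F', w'.restrict F = v → w'.ord (f / h) = 0 := by
      intro w' hw'
      rw [ord_div w' hf0 hh0, hh, hordprod, Finset.sum_eq_single w']
      · rw [hg w' w' hw', if_pos rfl]; ring
      · intro w hw hne
        rw [hg w w' hw', if_neg (Ne.symm hne), mul_zero]
      · intro h'
        exact absurd (Place.mem_fiber.mpr hw') h'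
    have h1 := norm_ord_eq_zero v hunit
    have h2 : Algebra.norm F f = Algebra.norm F (f / h) * Algebra.norm F h := by
      rw [← map_mul, div_mul_cancel₀ _ hh0]
    rw [h2, v.ord_mul (norm_ne_zero (div_ne_zero hf0 hh0)) (norm_ne_zero hh0), h1, zero_add]
    have hnprod : ∀ s : Finset (Place K F'),
        v.ord (Algebra.norm F (∏ w ∈ s, g w ^ (w.ord f))) =
          ∑ w ∈ s, v.ord (Algebra.norm F (g w)) * w.ord f := by
      intro s
      induction s using Finset.induction_on with
      | empty => simp
      | insert w s hws ih =>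
        rw [Finset.prod_insert hws, Finset.sum_insert hws, map_mul, v.ord_mul
          (norm_ne_zero (zpow_ne_zero _ (hg0 w)))
          (norm_ne_zero (Finset.prod_ne_zero_iff.mpr fun w _ => zpow_ne_zero _ (hg0 w))), ih]
        congr 1
        have h3 : Algebra.norm F (g w ^ (w.ord f)) = (Algebra.norm F (g w)) ^ (w.ord f) := by
          rcases Int.eq_nat_or_neg (w.ord f) with ⟨n, hn | hn⟩
          · rw [hn, zpow_natCast, zpow_natCast, map_pow]
          · rw [hn, zpow_neg, zpow_neg, zpow_natCast, zpow_natCast]
            apply eq_inv_of_mul_eq_one_left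
            rw [← map_pow, ← map_mul, inv_mul_cancel₀ (pow_ne_zero _ (hg0 w)), map_one]
        rw [h3, v.ord_zpow, mul_comm]
    exact hnprod _

variable [IsFF K F] [IsAlgClosed K]

theorem deg_eq_one (v : Place K F) : v.deg = 1 :=
  v.deg_eq_one_of_isAlgClosed_of_finite

/-- The norm formula at `v` over an algebraically closed constant field. -/
theorem ord_norm (v : Place K F) {f : F'} (hf0 : f ≠ 0) :
    v.ord (Algebra.norm F f) = ∑ w ∈ v.fiber F', w.ord f := by
  classical
  obtain ⟨a, ha1, ha⟩ := exists_norm_formula (F' := F') v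
  obtain ⟨t, ht0, ht⟩ := exists_ord_eq_one v
  have h1 := ha (algebraMap F F' t) (by simpa using ht0)
  rw [Algebra.norm_algebraMap, ord_pow, ht, mul_one] at h1
  have h2 := (fundamentalIdentity K F F').sum_ramificationIndex_mul_deg v
  simp only [deg_eq_one, Nat.cast_one, mul_one] at h2
  have h3 : ∀ w ∈ v.fiber F', w.ord (algebraMap F F' t) = w.ramificationIndex F := by
    intro w hw
    rw [w.ord_restrict, Place.mem_fiber.mp hw, ht, mul_one]
  have h4 : ∑ w ∈ v.fiber F', (a w - 1) * (w.ramificationIndex F : ℤ) = 0 := by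
    simp only [sub_mul, one_mul, Finset.sum_sub_distrib]
    rw [h2, h1, sub_eq_zero]
    exact Finset.sum_congr rfl fun w hw => by rw [h3 w hw]
  have h5 : ∀ w ∈ v.fiber F', (a w - 1) * (w.ramificationIndex F : ℤ) = 0 := by
    refine (Finset.sum_eq_zero_iff_of_nonneg fun w hw => ?_).mp h4
    have := ha1 w (Place.mem_fiber.mp hw)
    exact mul_nonneg (by omega) (Int.natCast_nonneg _)
  rw [ha f hf0]
  refine Finset.sum_congr rfl fun w hw => ?_
  have h6 := h5 w hw
  have h7 : (w.ramificationIndex F : ℤ) ≠ 0 := by
    exact_mod_cast (w.ramificationIndex_pos (F := F)).ne'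
  have h8 : a w = 1 := by
    rcases mul_eq_zero.mp h6 with h | h
    · omega
    · exact absurd h h7
  rw [h8, one_mul]

theorem inertiaDeg_eq_one (w : Place K F') : w.inertiaDeg F = 1 := by
  have h := w.deg_restrict_mul_inertiaDeg (F := F)
  rw [deg_eq_one, deg_eq_one, one_mul] at h
  exact h

variable (K F F') in
/-- **Norm formula**. -/
theorem pushforwardNormFormula : Divisor.PushforwardNormFormula K F F' := by
  classical
  intro f hf0 D hD v
  rw [ord_norm v hf0, Divisor.pushforward_apply, ← Finset.sum_filter]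
  symm
  have h1 : (D.support.filter fun w => w.restrict F = v) ⊆ v.fiber F' := by
    intro w hw
    rw [Finset.mem_filter] at hw
    exact Place.mem_fiber.mpr hw.2
  rw [← Finset.sum_subset h1]
  · refine Finset.sum_congr rfl fun w _ => ?_
    rw [inertiaDeg_eq_one, hD w, Nat.cast_one, mul_one]
  · intro w hw hws
    rw [Finset.mem_filter, not_and_or] at hws
    rcases hws with h | h
    · rw [← hD w]; exact Finsupp.notMem_support_iff.mp h
    · exact absurd (Place.mem_fiber.mp hw) h

end Fermat.Agent.PushPull
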